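import Mathlib

/-!
# Valuation rings: normalising a finite family, existence over a prime
-/

set_option autoImplicit false

namespace Fermat.Agent.Arith

/-- A finite family of scalars, not all zero, can be normalised at a largest one. -/
theorem exists_div_mem {K : Type*} [Field K] (A : ValuationSubring K) {ι : Type*} [Finite ι]
    {c : ι → K} (hc : ∃ i, c i ≠ 0) : ∃ i₀, c i₀ ≠ 0 ∧ ∀ i, c i / c i₀ ∈ A := by
  obtain ⟨i, hi⟩ := hc
  have : Nonempty ι := ⟨i⟩
  obtain ⟨i₀, hmax⟩ := Finite.exists_max fun j => A.valuation (c j)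
  have h0 : c i₀ ≠ 0 := fun e => hi (by simpa [e] using hmax i)
  refine ⟨i₀, h0, fun j => ?_⟩
  rw [← A.valuation_le_one_iff, map_div₀, div_le_one₀ ((Valuation.pos_iff _).mpr h0)]
  exact hmax j

/-- A field of characteristic zero has a valuation ring over every prime. -/
theorem exists_natCast_mem_nonunits (K : Type*) [Field K] [CharZero K] {q : ℕ} (hq : q.Prime) :
    ∃ A : ValuationSubring K, (q : K) ∈ A.nonunits := by
  set R : Subring K := (Int.castRingHom K).range
  let x : R := ⟨(q : K), (q : ℤ), by simp⟩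
  have hne : Ideal.span {x} ≠ ⊤ := by
    rw [Ne, Ideal.span_singleton_eq_top]
    rintro ⟨u, hu⟩
    obtain ⟨m, hm⟩ := (↑u⁻¹ : R).2
    have h1 : (q : K) * (m : K) = 1 := by
      have := congrArg Subtype.val u.mul_inv
      rw [hu] at this
      simpa [x, ← hm] using this
    have h2 : (q : ℤ) * m = 1 := by exact_mod_cast h1
    have := Int.eq_one_of_mul_eq_one_right (by positivity) h2
    exact hq.one_lt.ne' (by exact_mod_cast this)
  obtain ⟨A, -, hA⟩ := Ideal.image_subset_nonunits_valuationSubring _ hne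
  exact ⟨A, hA ⟨x, Ideal.subset_span rfl, rfl⟩⟩

end Fermat.Agent.Arith
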