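import Mathlib

/-!
# Almost integral Laurent series

If a set of scalars is completely integrally closed, so is the set of Laurent series with all
coefficients in it; a fraction satisfying a monic relation is almost integral.
-/

set_option autoImplicit false

noncomputable section

namespace Fermat.Agent.Arith

variable {L : Type*} [Field L] {S : Type*} [SetLike S L] [SubringClass S L] {R : S}

/-- If all `c * x ^ n` have coefficients in a completely integrally closed `R`, so has `x`. -/
theorem coeff_mem_of_almostIntegral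
    (hR : ∀ c a : L, c ≠ 0 → (∀ n : ℕ, c * a ^ n ∈ R) → a ∈ R) {c x : LaurentSeries L}
    (hc : c ≠ 0) (h : ∀ (n : ℕ) (m : ℤ), (c * x ^ n).coeff m ∈ R) : ∀ m, x.coeff m ∈ R := by
  by_contra hx
  push Not at hx
  set B := {n : ℤ | x.coeff n ∉ R} with hB
  have hsub : B ⊆ x.support := fun n hn h0 => hn (by rw [h0]; exact zero_mem _)
  obtain ⟨m, hm, hmin⟩ : ∃ m ∈ B, ∀ n ∈ B, m ≤ n :=
    ⟨(x.isWF_support.mono hsub).min hx, Set.IsWF.min_mem _ _, fun n hn => Set.IsWF.min_le _ _ hn⟩
  -- split off the integral lower part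
  set x0 : LaurentSeries L := ⟨fun n => if n < m then x.coeff n else 0,
    x.isPWO_support.mono (fun n hn => by
      simp only [Function.mem_support, HahnSeries.mem_support, ne_eq] at hn ⊢
      split_ifs at hn with h1
      · exact hn
      · exact absurd rfl hn)⟩ with hx0
  have hx0mem : ∀ n, x0.coeff n ∈ R := by
    intro n
    change (if n < m then x.coeff n else 0) ∈ R
    split_ifs with h1
    · by_contra hn
      exact absurd (hmin n hn) (not_le.mpr h1)
    · exact zero_mem _
  set x1 := x - x0 with hx1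
  have key : ∀ n i : ℕ, ∀ k, (c * x1 ^ n * x ^ i).coeff k ∈ R := by
    intro n
    induction n with
    | zero => intro i; simpa using h i
    | succ n ih =>
      intro i k
      rw [show c * x1 ^ (n + 1) * x ^ i =
        c * x1 ^ n * x ^ (i + 1) - x0 * (c * x1 ^ n * x ^ i) by rw [hx1]; ring, HahnSeries.coeff_sub,
        HahnSeries.coeff_mul]
      exact sub_mem (ih (i + 1) k) (sum_mem fun j _ => mul_mem (hx0mem j.1) (ih i j.2))
  have hcm : x1.coeff m = x.coeff m := by
    rw [hx1, HahnSeries.coeff_sub]
    change x.coeff m - (if m < m then x.coeff m else 0) = _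
    simp
  have hlt : ∀ n < m, x1.coeff n = 0 := by
    intro n hn
    rw [hx1, HahnSeries.coeff_sub]
    change x.coeff n - (if n < m then x.coeff n else 0) = _
    simp [hn]
  have hne : x.coeff m ≠ 0 := hsub hm
  have hx1ne : x1 ≠ 0 := fun h0 => hne (by rw [← hcm, h0]; rfl)
  have hord : x1.order = m :=
    le_antisymm (HahnSeries.order_le_of_coeff_ne_zero (by rwa [hcm]))
      (not_lt.mp fun hl => HahnSeries.coeff_order_eq_zero.not.mpr hx1ne (hlt _ hl))
  have hlead : x1.leadingCoeff = x.coeff m := by
    rw [HahnSeries.leadingCoeff_eq, hord, hcm]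
  refine hm (hR _ _ (HahnSeries.leadingCoeff_ne_zero.mpr hc) fun n => ?_)
  have hmem := key n 0 (c * x1 ^ n * x ^ 0).order
  rw [← HahnSeries.leadingCoeff_eq, pow_zero, mul_one, HahnSeries.leadingCoeff_mul] at hmem
  have hpow : ∀ j : ℕ, (x1 ^ j).leadingCoeff = x1.leadingCoeff ^ j := by
    intro j
    induction j with
    | zero => simp
    | succ j ih => rw [pow_succ, pow_succ, HahnSeries.leadingCoeff_mul, ih]
  rwa [hpow, hlead] at hmem

/-- `coeff_mem_of_almostIntegral` for power series. -/
theorem powerSeries_coeff_mem_of_almostIntegral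
    (hR : ∀ c a : L, c ≠ 0 → (∀ n : ℕ, c * a ^ n ∈ R) → a ∈ R) {c x : PowerSeries L}
    (hc : c ≠ 0) (h : ∀ n i : ℕ, (c * x ^ n).coeff i ∈ R) (i : ℕ) : x.coeff i ∈ R := by
  have hx := coeff_mem_of_almostIntegral hR (c := (c : LaurentSeries L))
    (x := (x : LaurentSeries L))
    (fun h0 => hc (HahnSeries.ofPowerSeries_injective (h0.trans (map_zero _).symm)))
    (fun n m => by
      rw [← map_pow, ← map_mul, PowerSeries.coeff_coe]
      split_ifs
      · exact zero_mem _
      · exact h n m.natAbs) (i : ℤ)
  rwa [PowerSeries.coeff_coe, if_neg (by omega), Int.natAbs_natCast] at hx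

/-- A fraction satisfying a monic relation is almost integral. -/
theorem pow_mul_mem_of_monic_rel {B : Type*} [CommRing B] {T : Type*} [SetLike T B]
    [SubringClass T B] {R : T} {x d : B} (hd : d ∈ R) (hdx : d * x ∈ R) {D : ℕ} {a : ℕ → B}
    (ha : ∀ i < D, a i ∈ R) (hrel : x ^ D + ∑ i ∈ Finset.range D, a i * x ^ i = 0) (n : ℕ) :
    d ^ D * x ^ n ∈ R := by
  induction n using Nat.strong_induction_on with
  | _ n ih =>
    rcases le_or_gt n D with hn | hn
    · obtain ⟨r, hr⟩ := Nat.exists_eq_add_of_le hn
      rw [hr, pow_add, show d ^ n * d ^ r * x ^ n = d ^ r * (d * x) ^ n by ring]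
      exact mul_mem (pow_mem hd _) (pow_mem hdx _)
    · obtain ⟨r, hr⟩ := Nat.exists_eq_add_of_le hn.le
      rw [hr, pow_add, eq_neg_of_add_eq_zero_left hrel, neg_mul, Finset.sum_mul, mul_neg,
        Finset.mul_sum]
      refine neg_mem (sum_mem fun i hi => ?_)
      rw [show d ^ D * (a i * x ^ i * x ^ r) = a i * (d ^ D * x ^ (i + r)) by ring]
      refine mul_mem (ha _ (Finset.mem_range.mp hi)) (ih _ ?_)
      have := Finset.mem_range.mp hi
      omega

end Fermat.Agent.Arith
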