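import Fermat.Agent.Arith.Places

/-!
# Echelon form of finite dimensional spaces of vectors over the algebraic numbers

A finite dimensional space of vectors, each of which can be normalised at a place `A`, has a basis
of integral vectors with linearly independent reductions.
-/

set_option autoImplicit false

noncomputable section

namespace Fermat.Agent.Arith

variable {A : ValuationSubring QBar}

/-- A basis of integral vectors with linearly independent reductions. -/
theorem echelon_vec {L : Type*} [Field L] [Algebra L QBar] {ι : Type*} :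
    ∀ (d : ℕ) (V : Submodule L (ι → QBar)) [FiniteDimensional L V], Module.finrank L V = d →
      (∀ x ∈ V, ∀ i, x i ∈ (algebraMap L QBar).fieldRange) →
      (∀ x ∈ V, x ≠ 0 → ∃ i, x i ≠ 0 ∧ ∀ j, x j / x i ∈ A) →
      ∃ w : Fin d → (ι → QBar), ∃ h : ∀ a i, w a i ∈ A, (∀ a, w a ∈ V) ∧
        LinearIndependent (IsLocalRing.ResidueField A) fun a i => IsLocalRing.residue A ⟨w a i, h a i⟩ := by
  intro d
  induction d with
  | zero =>
    intro V _ _ _ _
    exact ⟨Fin.elim0, fun a => a.elim0, fun a => a.elim0, linearIndependent_empty_type⟩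
  | succ d ih =>
    intro V _ hd hrat hscal
    obtain ⟨x, hxV, hx0⟩ := V.exists_mem_ne_zero_of_ne_bot (fun h0 => by
      rw [h0, finrank_bot] at hd; omega)
    obtain ⟨i, hxi, hdiv⟩ := hscal x hxV hx0
    obtain ⟨c, hc⟩ := hrat x hxV i
    have hc0 : c ≠ 0 := fun h0 => hxi (by rw [← hc, h0, map_zero])
    set x' : ι → QBar := c⁻¹ • x with hx'
    have hx'V : x' ∈ V := V.smul_mem _ hxV
    have hx'j : ∀ j, x' j = x j / x i := fun j => by
      rw [hx', Pi.smul_apply, Algebra.smul_def, map_inv₀, hc, inv_mul_eq_div]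
    have hx'i : x' i = 1 := by rw [hx'j, div_self hxi]
    have hx'A : ∀ j, x' j ∈ A := fun j => (hx'j j).symm ▸ hdiv j
    set V' : Submodule L (ι → QBar) := V ⊓ (LinearMap.proj i).ker with hV'
    have hsup : V' ⊔ Submodule.span L {x'} = V := by
      refine le_antisymm (sup_le inf_le_left
        (by rw [Submodule.span_le, Set.singleton_subset_iff]; exact hx'V)) fun y hy => ?_
      obtain ⟨e, he⟩ := hrat y hy i
      refine Submodule.mem_sup.mpr ⟨y - e • x', ⟨V.sub_mem hy (V.smul_mem _ hx'V), ?_⟩, e • x',
        Submodule.smul_mem _ _ (Submodule.mem_span_singleton_self x'), by abel⟩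
      show y i - (e • x') i = 0
      rw [Pi.smul_apply, hx'i, ← Algebra.algebraMap_eq_smul_one, he, sub_self]
    have hinf : V' ⊓ Submodule.span L {x'} = ⊥ := by
      rw [eq_bot_iff]
      rintro y ⟨⟨-, hy⟩, hy'⟩
      obtain ⟨e, rfl⟩ := Submodule.mem_span_singleton.mp hy'
      have : e • (1 : QBar) = 0 := by rw [← hx'i]; exact hy
      rw [smul_eq_zero, or_iff_left one_ne_zero] at this
      simp [this]
    have : FiniteDimensional L V' := Submodule.finiteDimensional_of_le inf_le_left
    have hd' : Module.finrank L V' = d := by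
      have h := Submodule.finrank_sup_add_finrank_inf_eq V' (Submodule.span L {x'})
      rw [hsup, hinf, finrank_bot, finrank_span_singleton
        (fun h0 => one_ne_zero (α := QBar) (by rw [← hx'i, h0]; rfl)), hd] at h
      omega
    obtain ⟨w, hw, hwV, hwi⟩ := ih V' hd' (fun y hy => hrat y hy.1) (fun y hy => hscal y hy.1)
    refine ⟨Fin.cons x' w, Fin.cases hx'A hw, Fin.cases hx'V fun a => (hwV a).1, ?_⟩
    have hcons : (fun a j => IsLocalRing.residue A
        ⟨(Fin.cons x' w : Fin (d + 1) → ι → QBar) a j, Fin.cases (motive := fun a => ∀ j,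
          (Fin.cons x' w : Fin (d + 1) → ι → QBar) a j ∈ A) hx'A hw a j⟩) =
        Fin.cons (fun j => IsLocalRing.residue A ⟨x' j, hx'A j⟩)
          (fun a j => IsLocalRing.residue A ⟨w a j, hw a j⟩) := by
      funext a
      refine Fin.cases ?_ ?_ a <;> intros <;> rfl
    rw [hcons, linearIndependent_finCons]
    refine ⟨hwi, fun hmem => ?_⟩
    have hle : Submodule.span (IsLocalRing.ResidueField A)
        (Set.range fun a j => IsLocalRing.residue A ⟨w a j, hw a j⟩) ≤
        (LinearMap.proj i : (ι → IsLocalRing.ResidueField A) →ₗ[IsLocalRing.ResidueField A] IsLocalRing.ResidueField A).ker := by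
      rw [Submodule.span_le]
      rintro _ ⟨a, rfl⟩
      show IsLocalRing.residue A ⟨w a i, hw a i⟩ = 0
      rw [show (⟨w a i, hw a i⟩ : A) = 0 from Subtype.ext (hwV a).2, map_zero]
    have h1 : IsLocalRing.residue A ⟨x' i, hx'A i⟩ = 0 := hle hmem
    rw [show (⟨x' i, hx'A i⟩ : A) = 1 from Subtype.ext hx'i, map_one] at h1
    exact one_ne_zero h1

end Fermat.Agent.Arith
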