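import Fermat.Agent.Arith.Places
import Fermat.Agent.Arith.ValNormalize

/-!
# Galois action on places over `q`: transitivity, inertia, Frobenius elements
-/

set_option autoImplicit false

noncomputable section

namespace Fermat.Agent.Arith

open scoped Pointwise

variable {q : ℕ} {A B : ValuationSubring QBar} {σ τ g : GQ}

/-- The ring of all algebraic integers. -/
abbrev ZBar : Type := integralClosure ℤ QBar

/-- Two places over `q` with comparable centres are comparable. -/
theorem le_of_centre_le (hA : A.LiesOverPrime q) (hq : q.Prime) (h : centre B ≤ centre A) :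
    A ≤ B := by
  intro x hx
  obtain ⟨a, b, ha, hb, hbn, hab⟩ := exists_integral_fraction hA hq hx
  have hb0 : b ≠ 0 := fun h0 => hbn (h0 ▸ A.nonunits.zero_mem)
  have hbB : b ∉ B.nonunits := fun hmem =>
    hbn ((mem_centre A).mp (h ((mem_centre B).mpr hmem : (⟨b, hb⟩ : ZBar) ∈ centre B)))
  have hxab : x = a * b⁻¹ := (eq_mul_inv_iff_mul_eq₀ hb0).mpr hab
  rw [hxab]
  exact mul_mem (mem_of_isIntegral B ha)
    ((notMem_nonunits_iff (mem_of_isIntegral B hb)).mp hbB).2

theorem eq_of_centre_eq (hA : A.LiesOverPrime q) (hB : B.LiesOverPrime q) (hq : q.Prime)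
    (h : centre A = centre B) : A = B :=
  le_antisymm (le_of_centre_le hA hq h.ge) (le_of_centre_le hB hq h.le)

/-- Existence of a place over every prime. -/
theorem exists_liesOverPrime (hq : q.Prime) :
    ∃ A : ValuationSubring QBar, A.LiesOverPrime q :=
  exists_natCast_mem_nonunits QBar hq

theorem smul_mem_nonunits_smul_iff {x : QBar} : g • x ∈ (g • A).nonunits ↔ x ∈ A.nonunits := by
  rw [ValuationSubring.mem_nonunits_iff_or, ValuationSubring.mem_nonunits_iff_or,
    ← smul_inv'' g x, ValuationSubring.smul_mem_pointwise_smul_iff, smul_eq_zero_iff_eq]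

theorem liesOverPrime_smul_iff : (g • A).LiesOverPrime q ↔ A.LiesOverPrime q := by
  have h : g • (q : QBar) = (q : QBar) := map_natCast g q
  show (q : QBar) ∈ (g • A).nonunits ↔ _
  nth_rewrite 1 [← h]
  exact smul_mem_nonunits_smul_iff

theorem centre_smul : centre (g • A) = g • centre A := by
  ext x
  rw [Ideal.mem_pointwise_smul_iff_inv_smul_mem, mem_centre, mem_centre,
    ← smul_mem_nonunits_smul_iff (g := g) (A := A), integralClosure.coe_smul, smul_inv_smul]

instance zBar_discrete : TopologicalSpace ZBar := ⊥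

instance zBar_discreteTopology : DiscreteTopology ZBar := ⟨rfl⟩

instance zBar_continuousSMul : ContinuousSMul GQ ZBar := by
  rw [continuousSMul_iff_stabilizer_isOpen]
  intro x
  have hfin : FiniteDimensional ℚ (IntermediateField.adjoin ℚ {(x : QBar)}) :=
    IntermediateField.adjoin.finiteDimensional (Algebra.IsIntegral.isIntegral _)
  refine Subgroup.isOpen_mono ?_ (IntermediateField.fixingSubgroup_isOpen
    (IntermediateField.adjoin ℚ {(x : QBar)}))
  intro g hg
  rw [MulAction.mem_stabilizer_iff]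
  apply Subtype.ext
  rw [integralClosure.coe_smul]
  exact (IntermediateField.mem_fixingSubgroup_iff _ _).mp hg _
    (IntermediateField.mem_adjoin_simple_self ℚ _)

instance zBar_isInvariant : Algebra.IsInvariant ℤ ZBar GQ where
  isInvariant x hx := by
    have hfix : ∀ g : GQ, g (x : QBar) = (x : QBar) := fun g => congrArg Subtype.val (hx g)
    obtain ⟨r, hr⟩ := (InfiniteGalois.mem_bot_iff_fixed (x : QBar)).mpr hfix
    have hint : IsIntegral ℤ ((algebraMap ℚ QBar) r) := hr ▸ x.2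
    have hint' : IsIntegral ℤ r :=
      (isIntegral_algebraMap_iff (algebraMap ℚ QBar).injective).mp hint
    obtain ⟨m, rfl⟩ := IsIntegrallyClosed.isIntegral_iff.mp hint'
    refine ⟨m, Subtype.ext ?_⟩
    rw [← hr]
    simp

theorem centre_under (hA : A.LiesOverPrime q) (hq : q.Prime) :
    (centre A).under ℤ = Ideal.span {(q : ℤ)} := by
  ext m
  rw [Ideal.under_def, Ideal.mem_comap, mem_centre, Ideal.mem_span_singleton,
    ← intCast_mem_nonunits_iff hA hq]
  simp

/-- The Galois group acts transitively on the places over `q`. -/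
theorem exists_smul_eq (hA : A.LiesOverPrime q) (hB : B.LiesOverPrime q) (hq : q.Prime) :
    ∃ g : GQ, g • A = B := by
  obtain ⟨g, hg⟩ := Algebra.IsInvariant.exists_smul_of_under_eq_of_profinite (A := ℤ) (G := GQ)
    (centre A) (centre B) ((centre_under hA hq).trans (centre_under hB hq).symm)
  exact ⟨g, eq_of_centre_eq (liesOverPrime_smul_iff.mpr hA) hB hq (centre_smul.trans hg.symm)⟩

theorem mem_decomposition_iff :
    σ ∈ A.decompositionSubgroup ℚ ↔ σ • A = A :=
  MulAction.mem_stabilizer_iff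

theorem map_mem_of_mem_decomposition (h : σ • A = A) {x : QBar} (hx : x ∈ A) : σ x ∈ A := by
  have := ValuationSubring.smul_mem_pointwise_smul σ x A hx
  rwa [h] at this

theorem residue_eq_iff {x y : A} :
    IsLocalRing.residue A x = IsLocalRing.residue A y ↔ (x : QBar) - y ∈ A.nonunits := by
  rw [← sub_eq_zero, ← map_sub, IsLocalRing.residue_eq_zero_iff,
    ← ValuationSubring.coe_mem_nonunits_iff]
  rfl

theorem residue_smul (h : σ ∈ A.decompositionSubgroup ℚ) (x : A) :
    ((⟨σ, h⟩ : A.decompositionSubgroup ℚ) • IsLocalRing.residue A x) =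
      IsLocalRing.residue A ⟨σ x, map_mem_of_mem_decomposition h x.2⟩ :=
  rfl

theorem mem_inertia_iff_forall_mem :
    σ ∈ A.inertiaSubgroupIn ℚ ↔ σ • A = A ∧ ∀ x ∈ A, σ x - x ∈ A.nonunits := by
  constructor
  · rintro ⟨⟨τ, hτ⟩, hker, rfl⟩
    refine ⟨hτ, fun x hx => ?_⟩
    have := RingEquiv.congr_fun (MonoidHom.mem_ker.mp hker) (IsLocalRing.residue A ⟨x, hx⟩)
    exact residue_eq_iff.mp ((residue_smul hτ ⟨x, hx⟩).symm.trans this)
  · rintro ⟨hσ, h⟩
    refine ⟨⟨σ, hσ⟩, MonoidHom.mem_ker.mpr (RingEquiv.ext fun z => ?_), rfl⟩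
    obtain ⟨x, rfl⟩ := IsLocalRing.residue_surjective z
    exact (residue_smul hσ x).trans (residue_eq_iff.mpr (h x x.2))

theorem isFrobeniusAt_iff_forall_mem :
    A.IsFrobeniusAt σ q ↔ σ • A = A ∧ ∀ x ∈ A, σ x - x ^ q ∈ A.nonunits := by
  constructor
  · rintro ⟨hσ, h⟩
    refine ⟨hσ, fun x hx => ?_⟩
    have := h (IsLocalRing.residue A ⟨x, hx⟩)
    rw [residue_smul hσ, ← map_pow] at this
    exact residue_eq_iff.mp this
  · rintro ⟨hσ, h⟩
    refine ⟨hσ, fun z => ?_⟩
    obtain ⟨x, rfl⟩ := IsLocalRing.residue_surjective z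
    rw [residue_smul hσ, ← map_pow]
    exact residue_eq_iff.mpr (h x x.2)

theorem centre_isMaximal (hA : A.LiesOverPrime q) (hq : q.Prime) : (centre A).IsMaximal := by
  have : Algebra.IsIntegral ℤ ZBar := Algebra.IsInvariant.isIntegral_of_profinite (G := GQ)
  apply Ideal.isMaximal_of_isIntegral_of_isMaximal_comap (R := ℤ) (centre A)
  show ((centre A).under ℤ).IsMaximal
  rw [centre_under hA hq]
  exact PrincipalIdealRing.isMaximal_of_irreducible (Nat.prime_iff_prime_int.mp hq).irreducible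

/-- A congruence `σ x ≡ x ^ n` on algebraic integers extends to all of `A`. -/
theorem congr_pow_of_integral (hA : A.LiesOverPrime q) (hq : q.Prime) {n : ℕ}
    (h : ∀ x : QBar, IsIntegral ℤ x → σ x - x ^ n ∈ A.nonunits) :
    σ • A = A ∧ ∀ x ∈ A, σ x - x ^ n ∈ A.nonunits := by
  have key : ∀ x ∈ A, σ x ∈ A ∧ σ x - x ^ n ∈ A.nonunits := by
    intro x hx
    obtain ⟨a, b, ha, hb, hbn, hab⟩ := exists_integral_fraction hA hq hx
    have hbA := mem_of_isIntegral A hb
    obtain ⟨hb0, hbinv⟩ := (notMem_nonunits_iff hbA).mp hbn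
    have hb' := h b hb
    have hσb : σ b ∈ A := mem_of_isIntegral A (hb.map (σ : QBar →ₐ[ℚ] QBar).toIntAlgHom)
    have hσbn : σ b ∉ A.nonunits := fun hmem => by
      have hpow : b ^ n ∈ A.nonunits := by
        have := nonunits_sub hmem hb'
        rwa [sub_sub_cancel] at this
      have := nonunits_mul_left (pow_mem hbinv n) hpow
      rw [← mul_pow, inv_mul_cancel₀ hb0, one_pow] at this
      exact one_notMem_nonunits this
    obtain ⟨hσb0, hσbinv⟩ := (notMem_nonunits_iff hσb).mp hσbn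
    have hσab : σ x * σ b = σ a := by rw [← map_mul, hab]
    have hσx : σ x ∈ A := by
      rw [(eq_mul_inv_iff_mul_eq₀ hσb0).mpr hσab]
      exact mul_mem (mem_of_isIntegral A (ha.map (σ : QBar →ₐ[ℚ] QBar).toIntAlgHom)) hσbinv
    refine ⟨hσx, ?_⟩
    have h1 : (σ a - a ^ n) - x ^ n * (σ b - b ^ n) ∈ A.nonunits :=
      nonunits_sub (h a ha) (nonunits_mul_left (pow_mem hx n) hb')
    have h2 : (σ a - a ^ n) - x ^ n * (σ b - b ^ n) = (σ x - x ^ n) * σ b := by
      rw [← hσab, ← hab]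
      ring
    rw [h2] at h1
    have := nonunits_mul_right h1 hσbinv
    rwa [mul_inv_cancel_right₀ hσb0] at this
  have hle : σ • A ≤ A := fun y hy => by
    obtain ⟨x, hx, rfl⟩ := (ValuationSubring.mem_smul_pointwise_iff_exists σ y A).mp hy
    exact (key x hx).1
  refine ⟨?_, fun x hx => (key x hx).2⟩
  refine eq_of_centre_eq (liesOverPrime_smul_iff.mpr hA) hA hq ?_
  refine ((centre_isMaximal hA hq).eq_of_le (centre_isPrime _).ne_top ?_).symm
  intro x hx
  rw [mem_centre] at hx ⊢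
  exact ValuationSubring.nonunits_le_nonunits.mpr hle hx

/-- An element is in inertia at `A` iff it is the identity on algebraic integers mod `A`. -/
theorem mem_inertia_iff (hA : A.LiesOverPrime q) (hq : q.Prime) :
    σ ∈ A.inertiaSubgroupIn ℚ ↔ ∀ x : QBar, IsIntegral ℤ x → σ x - x ∈ A.nonunits := by
  rw [mem_inertia_iff_forall_mem]
  refine ⟨fun h x hx => h.2 x (mem_of_isIntegral A hx), fun h => ?_⟩
  simpa using congr_pow_of_integral (n := 1) hA hq (fun x hx => by simpa using h x hx)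

/-- An element is a Frobenius at `A` iff it is `x ↦ x ^ q` on algebraic integers mod `A`. -/
theorem isFrobeniusAt_iff (hA : A.LiesOverPrime q) (hq : q.Prime) :
    A.IsFrobeniusAt σ q ↔ ∀ x : QBar, IsIntegral ℤ x → σ x - x ^ q ∈ A.nonunits := by
  rw [isFrobeniusAt_iff_forall_mem]
  exact ⟨fun h x hx => h.2 x (mem_of_isIntegral A hx), congr_pow_of_integral hA hq⟩

theorem centre_liesOver (hA : A.LiesOverPrime q) (hq : q.Prime) :
    (centre A).LiesOver (Ideal.span {(q : ℤ)}) :=
  ⟨(centre_under hA hq).symm⟩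

theorem natCast_mk_centre_eq_zero (hA : A.LiesOverPrime q) :
    (q : ZBar ⧸ centre A) = 0 := by
  rw [← map_natCast (Ideal.Quotient.mk (centre A)) q, Ideal.Quotient.eq_zero_iff_mem, mem_centre]
  exact hA

/-- Every place over `q` has a Frobenius element. -/
theorem exists_isFrobeniusAt (hA : A.LiesOverPrime q) (hq : q.Prime) :
    ∃ σ : GQ, A.IsFrobeniusAt σ q := by
  have hmax := centre_isMaximal hA hq
  have := centre_liesOver hA hq
  let k := ZBar ⧸ centre A
  have : Fact q.Prime := ⟨hq⟩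
  have : CharP k q := (CharP.charP_iff_prime_eq_zero hq).mpr (natCast_mk_centre_eq_zero hA)
  -- the Frobenius of the residue ring, a bijection as every element has a `q`-th root
  have hbij : Function.Bijective (fun x : k => x ^ q) := by
    refine ⟨(frobenius_inj k q), fun z => ?_⟩
    obtain ⟨x, rfl⟩ := Ideal.Quotient.mk_surjective z
    obtain ⟨y, hy⟩ := IsAlgClosed.exists_pow_nat_eq (x : QBar) hq.pos
    refine ⟨Ideal.Quotient.mk _ ⟨y, IsIntegral.of_pow hq.pos (hy ▸ x.2)⟩, ?_⟩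
    show (Ideal.Quotient.mk (centre A) _) ^ q = _
    rw [← map_pow]
    exact congrArg _ (Subtype.ext hy)
  let F : k ≃ₐ[ℤ ⧸ Ideal.span {(q : ℤ)}] k :=
    AlgEquiv.ofRingEquiv (f := RingEquiv.ofBijective (frobenius k q) hbij) fun r => by
      obtain ⟨m, rfl⟩ := Ideal.Quotient.mk_surjective r
      exact RingHom.congr_fun (RingHom.ext_int ((frobenius k q).comp
        ((algebraMap (ℤ ⧸ Ideal.span {(q : ℤ)}) k).comp (Ideal.Quotient.mk _)))
        ((algebraMap (ℤ ⧸ Ideal.span {(q : ℤ)}) k).comp (Ideal.Quotient.mk _))) m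
  obtain ⟨⟨σ, hσ⟩, hσF⟩ :=
    Ideal.Quotient.stabilizerHom_surjective_of_profinite (G := GQ) _ (centre A) F
  refine ⟨σ, (isFrobeniusAt_iff hA hq).mpr fun x hx => ?_⟩
  have h1 := DFunLike.congr_fun hσF (Ideal.Quotient.mk (centre A) ⟨x, hx⟩)
  have h2 : Ideal.Quotient.mk (centre A) (σ • ⟨x, hx⟩) =
      Ideal.Quotient.mk (centre A) (⟨x, hx⟩ ^ q) := by
    rw [map_pow]; exact h1
  rw [Ideal.Quotient.eq, mem_centre] at h2
  exact h2

theorem isFrobeniusAt_conj (h : A.IsFrobeniusAt σ q) : (g • A).IsFrobeniusAt (g * σ * g⁻¹) q := by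
  rw [isFrobeniusAt_iff_forall_mem] at h ⊢
  refine ⟨by rw [mul_smul, mul_smul, inv_smul_smul, h.1], fun x hx => ?_⟩
  have := h.2 _ (ValuationSubring.mem_pointwise_smul_iff_inv_smul_mem.mp hx)
  rw [← smul_mem_nonunits_smul_iff (g := g), smul_sub, smul_pow', smul_inv_smul] at this
  exact this

theorem mem_inertia_smul_iff :
    g * σ * g⁻¹ ∈ (g • A).inertiaSubgroupIn ℚ ↔ σ ∈ A.inertiaSubgroupIn ℚ := by
  have key : ∀ (g σ : GQ) (A : ValuationSubring QBar), σ ∈ A.inertiaSubgroupIn ℚ →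
      g * σ * g⁻¹ ∈ (g • A).inertiaSubgroupIn ℚ := by
    intro g σ A h
    rw [mem_inertia_iff_forall_mem] at h ⊢
    refine ⟨by rw [mul_smul, mul_smul, inv_smul_smul, h.1], fun x hx => ?_⟩
    have := h.2 _ (ValuationSubring.mem_pointwise_smul_iff_inv_smul_mem.mp hx)
    rw [← smul_mem_nonunits_smul_iff (g := g), smul_sub, smul_inv_smul] at this
    exact this
  refine ⟨fun h => ?_, key g σ A⟩
  have := key g⁻¹ _ _ h
  rwa [inv_smul_smul, inv_inv, ← mul_assoc, ← mul_assoc, inv_mul_cancel, one_mul,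
    inv_mul_cancel_right] at this

theorem isFrobeniusAt_mul_inertia (h : A.IsFrobeniusAt σ q) (hτ : τ ∈ A.inertiaSubgroupIn ℚ) :
    A.IsFrobeniusAt (σ * τ) q := by
  obtain ⟨hσ, hσ'⟩ := h
  obtain ⟨⟨τ', hτ'⟩, hker, rfl⟩ := hτ
  refine ⟨mul_mem hσ hτ', fun x => ?_⟩
  show ((⟨σ, hσ⟩ : A.decompositionSubgroup ℚ) * ⟨τ', hτ'⟩) • x = _
  have h1 : (⟨τ', hτ'⟩ : A.decompositionSubgroup ℚ) • x = x :=
    RingEquiv.congr_fun (MonoidHom.mem_ker.mp hker) x
  rw [mul_smul, h1, hσ']

theorem inv_mul_mem_inertia (h : A.IsFrobeniusAt σ q) (h' : A.IsFrobeniusAt τ q) :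
    τ⁻¹ * σ ∈ A.inertiaSubgroupIn ℚ := by
  obtain ⟨hσ, hσ'⟩ := h
  obtain ⟨hτ, hτ'⟩ := h'
  refine ⟨⟨τ, hτ⟩⁻¹ * ⟨σ, hσ⟩, MonoidHom.mem_ker.mpr (RingEquiv.ext fun x => ?_), rfl⟩
  show ((⟨τ, hτ⟩ : A.decompositionSubgroup ℚ)⁻¹ * ⟨σ, hσ⟩) • x = x
  rw [mul_smul, inv_smul_eq_iff, hσ', hτ']

end Fermat.Agent.Arith
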