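import Fermat.Agent.Arith.Frobenius

/-!
# Closed conditions on the absolute Galois group

A condition on the image of one point is closed, hence so are congruence conditions inside a
decomposition group, in particular inertia.
-/

set_option autoImplicit false
set_option linter.style.haveILetI false

noncomputable section

namespace Fermat.Agent.Arith

open scoped Pointwise

variable {A : ValuationSubring QBar}

/-- Conditions on the image of a point are closed on the absolute Galois group. -/
theorem isClosed_setOf_apply (x : QBar) (P : QBar → Prop) :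
    IsClosed {σ : GQ | P (σ x)} := by
  refine ⟨isOpen_iff_forall_mem_open.mpr fun σ hσ => ?_⟩
  haveI : FiniteDimensional ℚ (IntermediateField.adjoin ℚ {x}) :=
    IntermediateField.adjoin.finiteDimensional (Algebra.IsIntegral.isIntegral x)
  refine ⟨(σ * ·) '' ((IntermediateField.adjoin ℚ {x}).fixingSubgroup : Set GQ),
    ?_, isOpenMap_mul_left σ _ (IntermediateField.fixingSubgroup_isOpen _),
    ⟨1, one_mem _, mul_one σ⟩⟩
  rintro _ ⟨τ, hτ, rfl⟩
  show ¬ P ((σ * τ) x)
  rw [AlgEquiv.mul_apply, (IntermediateField.mem_fixingSubgroup_iff _ τ).1 hτ x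
    (IntermediateField.mem_adjoin_simple_self ℚ x)]
  exact hσ

theorem smul_eq_iff_forall_mem {σ : GQ} :
    σ • A = A ↔ ∀ x, σ x ∈ A ↔ x ∈ A := by
  refine ⟨fun h x => ⟨fun hx => ?_, fun hx => map_mem_of_mem_decomposition h hx⟩,
    fun h => SetLike.ext fun y => ?_⟩
  · simpa using map_mem_of_mem_decomposition (mem_decomposition_iff.mp
      (inv_mem (mem_decomposition_iff.mpr h))) hx
  · rw [ValuationSubring.mem_pointwise_smul_iff_inv_smul_mem, ← h]
    exact iff_of_eq (congrArg (· ∈ A) (σ.apply_symm_apply y))

/-- Congruence conditions inside a decomposition group are closed. -/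
theorem isClosed_congr (A : ValuationSubring QBar) (F : QBar → QBar) :
    IsClosed {σ : GQ | σ • A = A ∧ ∀ x ∈ A, σ x - F x ∈ A.nonunits} := by
  simp only [smul_eq_iff_forall_mem, Set.ofPred_and, Set.ofPred_forall]
  exact (isClosed_iInter fun x => isClosed_setOf_apply x fun y => y ∈ A ↔ x ∈ A).inter
    (isClosed_iInter fun x => isClosed_iInter fun _ =>
      isClosed_setOf_apply x fun y => y - F x ∈ A.nonunits)

/-- Inertia is closed. -/
theorem isClosed_inertia (A : ValuationSubring QBar) :
    IsClosed (A.inertiaSubgroupIn ℚ : Set GQ) := by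
  convert isClosed_congr A id using 1
  exact Set.ext fun _ => mem_inertia_iff_forall_mem

end Fermat.Agent.Arith
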