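import Fermat.Agent.Arith.Frobenius

/-!
# Lifting inertia from a finite level

The prime of the integers of a finite level cut out by a place of `QBar`, and lifts of its inertia.
-/

set_option autoImplicit false

noncomputable section

namespace Fermat.Agent.Arith

open scoped Pointwise NumberField

variable {q : ℕ} {A : ValuationSubring QBar}

/-- If `g` acts trivially modulo `A` on the algebraic integers fixed by the closed normal
subgroup `H`, then some element of `H * g` is in the inertia group at `A`. -/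
theorem exists_inertia_lift (hA : A.LiesOverPrime q) (hq : q.Prime) (H : Subgroup GQ) [H.Normal]
    (hH : IsClosed (H : Set GQ)) (g : GQ)
    (hg : ∀ x : QBar, IsIntegral ℤ x → (∀ h ∈ H, h x = x) → g x - x ∈ A.nonunits) :
    ∃ h ∈ H, h * g ∈ A.inertiaSubgroupIn ℚ := by
  have : CompactSpace H := isCompact_iff_compactSpace.mp hH.isCompact
  let R := FixedPoints.subalgebra ℤ ZBar H
  have : SMulCommClass H R ZBar := ⟨fun h r x => by
    show h • ((r : ZBar) * x) = (r : ZBar) * h • x
    rw [smul_mul', show h • (r : ZBar) = r from r.2 h]⟩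
  have : Algebra.IsInvariant R ZBar H := ⟨fun x hx => ⟨⟨x, hx⟩, rfl⟩⟩
  have hfix : ∀ x : R, ∀ h ∈ H, h ((x : ZBar) : QBar) = ((x : ZBar) : QBar) := fun x h hh =>
    congrArg Subtype.val (x.2 ⟨h, hh⟩)
  -- the two primes have the same centre on the fixed ring
  have hunder : (centre (g • A)).under R = (centre A).under R := by
    ext x
    show (x : ZBar) ∈ centre (g • A) ↔ (x : ZBar) ∈ centre A
    rw [centre_smul, Ideal.mem_pointwise_smul_iff_inv_smul_mem, mem_centre, mem_centre]
    have hy : ∀ h ∈ H, h ((g⁻¹ • (x : ZBar) : ZBar) : QBar) = ((g⁻¹ • (x : ZBar) : ZBar) : QBar) :=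
      fun h hh => by
      rw [integralClosure.coe_smul]
      show (h * g⁻¹) _ = g⁻¹ _
      have := hfix x _ (Subgroup.Normal.conj_mem ‹_› h hh g)
      calc (h * g⁻¹) ((x : ZBar) : QBar) = (g⁻¹ * (g * h * g⁻¹)) ((x : ZBar) : QBar) := by group
        _ = g⁻¹ ((x : ZBar) : QBar) := by rw [AlgEquiv.mul_apply, this]
    have h1 := hg _ (g⁻¹ • (x : ZBar)).2 hy
    rw [integralClosure.coe_smul] at h1 ⊢
    rw [← AlgEquiv.smul_def g, smul_inv_smul] at h1
    constructor
    · intro h2; simpa using nonunits_add h1 h2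
    · intro h2; simpa using nonunits_sub h2 h1
  obtain ⟨h₁, hh₁⟩ := Algebra.IsInvariant.exists_smul_of_under_eq_of_profinite (A := R) (G := H)
    (centre (g • A)) (centre A) hunder
  set σ : GQ := (h₁ : GQ) * g with hσdef
  have hσA : σ • A = A := by
    refine eq_of_centre_eq (liesOverPrime_smul_iff.mpr hA) hA hq ?_
    rw [centre_smul, hσdef, mul_smul, ← centre_smul]
    exact hh₁.symm
  -- the residue automorphism of `σ`
  have : (centre A).LiesOver ((centre A).under R) := ⟨rfl⟩
  have hstab : σ • centre A = centre A := by rw [← centre_smul, hσA]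
  let P : Ideal R := (centre A).under R
  let F₀ : (ZBar ⧸ centre A) ≃+* ZBar ⧸ centre A :=
    Ideal.quotientEquiv (centre A) (centre A) (MulSemiringAction.toRingEquiv GQ ZBar σ) hstab.symm
  let F : (ZBar ⧸ centre A) ≃ₐ[R ⧸ P] ZBar ⧸ centre A :=
    AlgEquiv.ofRingEquiv (f := F₀) fun r => by
      obtain ⟨x, rfl⟩ := Ideal.Quotient.mk_surjective r
      show Ideal.Quotient.mk (centre A) (σ • (x : ZBar)) = Ideal.Quotient.mk (centre A) (x : ZBar)
      rw [Ideal.Quotient.eq, mem_centre]
      show σ ((x : ZBar) : QBar) - ((x : ZBar) : QBar) ∈ A.nonunits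
      rw [hσdef, AlgEquiv.mul_apply]
      have h2 := hg _ (x : ZBar).2 (hfix x)
      have h3 : (h₁ : GQ) (g ((x : ZBar) : QBar)) = g ((x : ZBar) : QBar) := by
        have h4 := Subgroup.Normal.conj_mem ‹_› (h₁ : GQ) h₁.2 g⁻¹
        rw [inv_inv] at h4
        conv_rhs => rw [← hfix x _ h4]
        simp only [← AlgEquiv.smul_def, mul_smul, smul_inv_smul]
      rw [h3]; exact h2
  obtain ⟨⟨h₂, hh₂⟩, hh₂F⟩ :=
    Ideal.Quotient.stabilizerHom_surjective_of_profinite (A := R) (G := H) P (centre A) F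
  refine ⟨((h₂⁻¹ * h₁ : H) : GQ), (h₂⁻¹ * h₁ : H).2, (mem_inertia_iff hA hq).mpr fun x hx => ?_⟩
  have h5 := DFunLike.congr_fun hh₂F (Ideal.Quotient.mk (centre A) ⟨x, hx⟩)
  have h6 : Ideal.Quotient.mk (centre A) (h₂ • ⟨x, hx⟩) =
      Ideal.Quotient.mk (centre A) (σ • ⟨x, hx⟩) := h5
  rw [Ideal.Quotient.eq, mem_centre] at h6
  have h7 : (h₂ : GQ) x - σ x ∈ A.nonunits := h6
  have hh₂A : (h₂ : GQ)⁻¹ • A = A := by
    rw [inv_smul_eq_iff]
    refine (eq_of_centre_eq (liesOverPrime_smul_iff.mpr hA) hA hq ?_).symm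
    rw [centre_smul]
    exact hh₂
  have h8 := (smul_mem_nonunits_smul_iff (g := (h₂ : GQ)⁻¹)).mpr h7
  rw [hh₂A, smul_sub, ← AlgEquiv.smul_def, inv_smul_smul] at h8
  have h9 : (((h₂⁻¹ * h₁ : H) : GQ) * g) x = (h₂ : GQ)⁻¹ • σ x := by
    rw [hσdef, Subgroup.coe_mul, Subgroup.coe_inv, mul_assoc, AlgEquiv.mul_apply,
      AlgEquiv.smul_def]
  rw [h9]
  simpa using nonunits_neg h8

/-- The integers of a subfield of `QBar` inside the algebraic integers. -/
def embInt (L : IntermediateField ℚ QBar) : 𝓞 L →+* integralClosure ℤ QBar where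
  toFun x := ⟨((x : L) : QBar), (x.2 : IsIntegral ℤ (x : L)).map (L.val.toRingHom.toIntAlgHom)⟩
  map_one' := Subtype.ext (by simp)
  map_mul' x y := Subtype.ext (by simp)
  map_zero' := Subtype.ext (by simp)
  map_add' x y := Subtype.ext (by simp)

/-- The prime of `𝓞 L` cut out by the place `A`. -/
def centreAt (A : ValuationSubring QBar) (L : IntermediateField ℚ QBar) : Ideal (𝓞 L) :=
  (centre A).comap (embInt L)

lemma mem_centreAt {A : ValuationSubring QBar} {L : IntermediateField ℚ QBar} {x : 𝓞 L} :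
    x ∈ centreAt A L ↔ ((x : L) : QBar) ∈ A.nonunits := by
  rw [centreAt, Ideal.mem_comap, mem_centre]; rfl

instance centreAt_isPrime (A : ValuationSubring QBar) (L : IntermediateField ℚ QBar) :
    (centreAt A L).IsPrime := Ideal.IsPrime.comap _

/-- An element of `L` integral over `ℤ`, as an element of `𝓞 L`. -/
def intOf {L : IntermediateField ℚ QBar} {x : QBar} (hx : x ∈ L) (hi : IsIntegral ℤ x) : 𝓞 L :=
  ⟨⟨x, hx⟩, (isIntegral_algHom_iff (L.val.toRingHom.toIntAlgHom) L.val.injective).mp hi⟩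

theorem natCast_mem_centreAt {L : IntermediateField ℚ QBar} (hA : A.LiesOverPrime q) :
    (q : 𝓞 L) ∈ centreAt A L := by
  rw [centreAt, Ideal.mem_comap, map_natCast, mem_centre]
  exact hA

theorem centreAt_liesOver {L : IntermediateField ℚ QBar} (hA : A.LiesOverPrime q) (hq : q.Prime) :
    (centreAt A L).LiesOver (Ideal.span {(q : ℤ)}) :=
  (Ideal.liesOver_span_iff Ideal.IsPrime.ne_top' (Nat.prime_iff_prime_int.mp hq)).mpr
    (by simpa using natCast_mem_centreAt (L := L) hA)

/-- An element of inertia at `centreAt A L` lifts to the inertia group at `A`. -/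
theorem exists_inertia_restrict (L : IntermediateField ℚ QBar) [IsGalois ℚ L]
    (hA : A.LiesOverPrime q) (hq : q.Prime) {τ : L ≃ₐ[ℚ] L}
    (hτ : τ ∈ (centreAt A L).inertia Gal(L/ℚ)) :
    ∃ σ ∈ A.inertiaSubgroupIn ℚ, ∀ x : L, σ (x : QBar) = (τ x : L) := by
  obtain ⟨g, rfl⟩ := AlgEquiv.restrictNormalHom_surjective (K₁ := L) QBar τ
  have hgx : ∀ x : L, g (x : QBar) = (AlgEquiv.restrictNormalHom L g x : L) := fun x =>
    (AlgEquiv.restrictNormal_commutes g L x).symm
  have : L.fixingSubgroup.Normal := (InfiniteGalois.normal_iff_isGalois L).mpr ‹_›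
  obtain ⟨h, hh, hin⟩ := exists_inertia_lift hA hq L.fixingSubgroup
    (InfiniteGalois.fixingSubgroup_isClosed L) g fun x hx hfix => by
      have hxL : x ∈ L := by
        rw [← InfiniteGalois.fixedField_fixingSubgroup L]
        exact fun σ => hfix σ.1 σ.2
      have h1 : AlgEquiv.restrictNormalHom L g • intOf hxL hx - intOf hxL hx ∈ centreAt A L :=
        hτ _
      rw [mem_centreAt] at h1
      rw [show g x = _ from hgx ⟨x, hxL⟩]
      exact h1
  refine ⟨h * g, hin, fun x => ?_⟩
  rw [AlgEquiv.mul_apply, hgx]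
  exact (IntermediateField.mem_fixingSubgroup_iff _ _).mp hh _ (AlgEquiv.restrictNormalHom L g x).2

end Fermat.Agent.Arith
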