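import Fermat.Agent.Arith.InertiaLift
import Fermat.Prelude.Def_GaloisRep_Residual

/-!
# A Galois representation trivial on all inertia groups is trivial
-/

set_option autoImplicit false

noncomputable section

namespace Fermat.Agent.Arith

open scoped Pointwise NumberField

variable {M : Type*} [Monoid M]

/-- The kernel of a monoid homomorphism out of the Galois group, as a subgroup. -/
def galKer (ρ : GQ →* M) : Subgroup GQ := ρ.toHomUnits.ker

theorem mem_galKer {ρ : GQ →* M} {σ : GQ} : σ ∈ galKer ρ ↔ ρ σ = 1 := by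
  rw [galKer, MonoidHom.mem_ker, Units.ext_iff]
  rfl

instance galKer_normal (ρ : GQ →* M) : (galKer ρ).Normal := MonoidHom.normal_ker _

theorem isOpen_galKer_of_fixing {ρ : GQ →* M} (L : IntermediateField ℚ QBar)
    [FiniteDimensional ℚ L] (h : ∀ σ : GQ, (∀ x ∈ L, σ x = x) → ρ σ = 1) :
    IsOpen (galKer ρ : Set GQ) :=
  Subgroup.isOpen_mono
    (fun σ hσ => mem_galKer.mpr (h σ fun x hx =>
      (IntermediateField.mem_fixingSubgroup_iff _ _).mp hσ x hx))
    (IntermediateField.fixingSubgroup_isOpen L)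

theorem eq_top_of_inertia_le (H : Subgroup GQ) [H.Normal] (hopen : IsOpen (H : Set GQ))
    (h : ∀ q : ℕ, q.Prime → ∀ A : ValuationSubring QBar, A.LiesOverPrime q →
      A.inertiaSubgroupIn ℚ ≤ H) : H = ⊤ := by
  let L : IntermediateField ℚ QBar := IntermediateField.fixedField H
  have hclosed : IsClosed (H : Set GQ) := H.isClosed_of_isOpen hopen
  have hfix : L.fixingSubgroup = H := InfiniteGalois.fixingSubgroup_fixedField ⟨H, hclosed⟩
  have : FiniteDimensional ℚ L :=
    (InfiniteGalois.isOpen_iff_finite L).mp (by rw [hfix]; exact hopen)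
  have : IsGalois ℚ L := (InfiniteGalois.normal_iff_isGalois L).mp (by rw [hfix]; infer_instance)
  have : NumberField L := { to_finiteDimensional := inferInstance }
  suffices hrank : Module.finrank ℚ L = 1 by
    rw [← hfix, IntermediateField.finrank_eq_one_iff.mp hrank, IntermediateField.fixingSubgroup_bot]
  by_contra hne
  have hpos : 0 < Module.finrank ℚ L := Module.finrank_pos
  obtain ⟨p, hp, hram⟩ :=
    NumberField.exists_not_isUnramifiedAt_int_of_isGalois (K := L) (𝒪 := 𝓞 L) (by omega)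
  obtain ⟨A, hA⟩ := exists_liesOverPrime hp
  let P : Ideal (𝓞 L) := centreAt A L
  have hp𝔓 : (p : 𝓞 L) ∈ P := natCast_mem_centreAt hA
  apply hram P inferInstance hp𝔓
  have : IsGaloisGroup Gal(L/ℚ) ℤ (𝓞 L) := IsGaloisGroup.of_isFractionRing Gal(L/ℚ) ℤ (𝓞 L) ℚ L
  -- the inertia group at `P` is trivial
  have htriv : ∀ τ ∈ P.inertia Gal(L/ℚ), τ = 1 := by
    intro τ hτ
    obtain ⟨σ, hin, hσ⟩ := exists_inertia_restrict L hA hp hτ
    exact AlgEquiv.ext fun y => Subtype.ext ((hσ y).symm.trans (y.2 ⟨σ, h p hp A hA hin⟩))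
  have hPp : P.LiesOver (Ideal.span {(p : ℤ)}) := centreAt_liesOver hA hp
  have : (Ideal.span {(p : ℤ)}).IsMaximal :=
    PrincipalIdealRing.isMaximal_of_irreducible (Nat.prime_iff_prime_int.mp hp).irreducible
  rw [← Ideal.ramificationIdx_eq_one_iff,
    ← Ideal.ramificationIdxIn_eq_ramificationIdx (Ideal.span {(p : ℤ)}) P Gal(L/ℚ),
    ← Ideal.card_inertia_eq_ramificationIdxIn (G := Gal(L/ℚ)) (Ideal.span {(p : ℤ)}) P,
    (Subgroup.eq_bot_iff_forall _).mpr htriv]
  exact Subgroup.card_bot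

/-- Minkowski: a finite-level representation of `Gal(ℚ̄/ℚ)` trivial on all inertia is trivial. -/
theorem eq_one_of_trivial_on_inertia (ρ : GQ →* M) (L : IntermediateField ℚ QBar)
    [FiniteDimensional ℚ L] (hL : ∀ σ : GQ, (∀ x ∈ L, σ x = x) → ρ σ = 1)
    (h : ∀ q : ℕ, q.Prime → ∀ A : ValuationSubring QBar, A.LiesOverPrime q →
      ∀ σ ∈ A.inertiaSubgroupIn ℚ, ρ σ = 1) : ρ = 1 := by
  ext σ
  have := eq_top_of_inertia_le (galKer ρ) (isOpen_galKer_of_fixing L hL)
    fun q hq A hA τ hτ => mem_galKer.mpr (h q hq A hA τ hτ)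
  exact mem_galKer.mp (this ▸ Subgroup.mem_top σ)

theorem eq_one_of_trivial_on_inertia' {M : Type} [Monoid M] (ρ : GQ →* M)
    (hfin : GaloisFactorsThroughFiniteLevel ρ)
    (h : ∀ q : ℕ, q.Prime → ∀ A : ValuationSubring QBar, A.LiesOverPrime q →
      ∀ σ ∈ A.inertiaSubgroupIn ℚ, ρ σ = 1) : ρ = 1 := by
  obtain ⟨L, hLfin, hL⟩ := hfin
  exact eq_one_of_trivial_on_inertia ρ L hL h

end Fermat.Agent.Arith
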