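import Fermat.Agent.Arith.Places

/-!
# Valuation rings of `QBar` with nonzero nonunits lie over primes
-/

set_option autoImplicit false

namespace Fermat.Agent.Arith

open ValuationSubring

/-- A valuation ring of `QBar` with a nonzero nonunit lies over a prime. -/
theorem exists_prime_of_mem_nonunits {A : ValuationSubring QBar} {w : QBar} (hw0 : w ≠ 0)
    (hw : w ∈ A.nonunits) : ∃ q : ℕ, q.Prime ∧ A.LiesOverPrime q := by
  have halg : IsAlgebraic ℤ w :=
    (IsFractionRing.isAlgebraic_iff ℤ ℚ QBar).mpr (Algebra.IsAlgebraic.isAlgebraic w)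
  obtain ⟨g, hg0, hgw⟩ := halg.exists_nonzero_coeff_and_aeval_eq_zero
    (mem_nonZeroDivisors_of_ne_zero hw0)
  have hn : (g.coeff 0 : IsLocalRing.ResidueField A) = 0 := by
    let w' : A := ⟨w, nonunits_subset hw⟩
    have h : Polynomial.aeval w' g = 0 := Subtype.val_injective <| by
      simpa using (Polynomial.aeval_algHom_apply (A.subtype.toIntAlgHom) w' g).symm.trans hgw
    have hw' : IsLocalRing.residue A w' = 0 :=
      (IsLocalRing.residue_eq_zero_iff _).mpr (coe_mem_nonunits_iff.mp hw)
    simpa [hw', Polynomial.aeval_def, Polynomial.eval₂_at_zero] using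
      (Polynomial.aeval_algHom_apply (IsLocalRing.residue A).toIntAlgHom w' g).trans
        (by rw [h, map_zero])
  obtain ⟨q, _⟩ := CharP.exists (IsLocalRing.ResidueField A)
  refine ⟨q, (CharP.char_is_prime_or_zero (IsLocalRing.ResidueField A) q).resolve_right ?_, ?_⟩
  · rintro rfl
    exact hg0 (by simpa using (CharP.intCast_eq_zero_iff _ 0 _).mp hn)
  · exact mem_nonunits_iff_exists_mem_maximalIdeal.mpr ⟨natCast_mem A q,
      (IsLocalRing.residue_eq_zero_iff _).mp
        ((map_natCast (IsLocalRing.residue A) q).trans (CharP.cast_eq_zero _ q))⟩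

end Fermat.Agent.Arith
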