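import Mathlib.NumberTheory.Padics.ProperSpace
import Mathlib.NumberTheory.Padics.RingHoms

/-!
# Compatible residues modulo the powers of a prime

A compatible system of residues modulo `r ^ m` comes from an element of `ℤ_r`.
-/

set_option autoImplicit false

namespace Fermat.Agent.Arith

variable {r : ℕ} [Fact r.Prime]

/-- A compatible system of classes is given by an element of `ℤ_r`. -/
theorem exists_toZModPow_eq (a : ∀ m, ZMod (r ^ m))
    (h : ∀ m, ZMod.castHom (pow_dvd_pow r (Nat.le_succ m)) (ZMod (r ^ m)) (a (m + 1)) = a m) :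
    ∃ x : ℤ_[r], ∀ m, PadicInt.toZModPow m x = a m := by
  have hiff : ∀ (m : ℕ) (x : ℤ_[r]),
      x ∈ Metric.closedBall ((a m).val : ℤ_[r]) ((r : ℝ) ^ (-(m : ℤ))) ↔
        PadicInt.toZModPow m x = a m := by
    intro m x
    rw [Metric.mem_closedBall, dist_eq_norm, PadicInt.norm_le_pow_iff_mem_span_pow,
      ← PadicInt.ker_toZModPow, RingHom.mem_ker, map_sub, map_natCast, ZMod.natCast_zmod_val,
      sub_eq_zero]
  obtain ⟨x, hx⟩ := IsCompact.nonempty_iInter_of_sequence_nonempty_isCompact_isClosed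
    (fun m => Metric.closedBall ((a m).val : ℤ_[r]) ((r : ℝ) ^ (-(m : ℤ))))
    (fun m x hx => by
      rw [hiff] at hx ⊢
      rw [← h m, ← hx, ← RingHom.comp_apply]
      exact (RingHom.congr_fun
        (PadicInt.zmod_cast_comp_toZModPow m (m + 1) (Nat.le_succ m)) x).symm)
    (fun m => ⟨_, Metric.mem_closedBall_self (zpow_nonneg (Nat.cast_nonneg r) _)⟩)
    (isCompact_closedBall _ _) (fun m => Metric.isClosed_closedBall)
  exact ⟨x, fun m => (hiff m x).mp (Set.mem_iInter.mp hx m)⟩

end Fermat.Agent.Arith
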