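import Mathlib
import Fermat.Prelude.Def_FLTPrelim_Ramification
import Fermat.Prelude.Def_EllipticCurve_FrobeniusTrace

/-!
# Places of the algebraic closure of `ℚ` over a prime `q`

Basic facts about valuation subrings `A` of `AlgebraicClosure ℚ` with `A.LiesOverPrime q`:
existence, description through their centre on the algebraic integers, criteria for inertia
and Frobenius elements.
-/

set_option autoImplicit false

noncomputable section

namespace Fermat.Agent.Arith

open scoped Pointwise

/-- The algebraic closure of `ℚ`. -/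
abbrev QBar : Type := AlgebraicClosure ℚ

/-- The absolute Galois group of `ℚ`. -/
abbrev GQ : Type := AlgebraicClosure ℚ ≃ₐ[ℚ] AlgebraicClosure ℚ

instance qBar_isAlgebraic : Algebra.IsAlgebraic ℚ (AlgebraicClosure ℚ) :=
  AlgebraicClosure.isAlgebraic ℚ

instance qBar_isAlgClosure : IsAlgClosure ℚ (AlgebraicClosure ℚ) :=
  ⟨inferInstance, inferInstance⟩

instance qBar_isGalois : IsGalois ℚ (AlgebraicClosure ℚ) :=
  haveI : Normal ℚ (AlgebraicClosure ℚ) := IsAlgClosure.normal ℚ (AlgebraicClosure ℚ)
  ⟨⟩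

section General

variable {L : Type*} [Field L] (A : ValuationSubring L)

/-- Integral elements lie in every valuation subring. -/
theorem mem_of_isIntegral {x : L} (hx : IsIntegral ℤ x) : x ∈ A := by
  have hA : IsIntegral A x := hx.tower_top
  obtain ⟨y, hy⟩ := (IsIntegrallyClosed.isIntegral_iff (R := A) (K := L)).mp hA
  exact hy ▸ y.2

/-- An element lying in every valuation subring is integral. -/
theorem isIntegral_of_forall_mem {x : L} (h : ∀ V : ValuationSubring L, x ∈ V) :
    IsIntegral ℤ x := by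
  by_contra hx
  obtain ⟨V, -, hV⟩ := Subring.exists_le_valuationSubring_of_isIntegrallyClosedIn
    (R := (integralClosure ℤ L).toSubring) (x := x) hx
  exact hV (h V)

variable {A}

theorem one_notMem_nonunits : (1 : L) ∉ A.nonunits := by
  simp [ValuationSubring.mem_nonunits_iff]

theorem nonunits_add {x y : L} (hx : x ∈ A.nonunits) (hy : y ∈ A.nonunits) :
    x + y ∈ A.nonunits :=
  A.nonunits.add_mem hx hy

theorem nonunits_neg {x : L} (hx : x ∈ A.nonunits) : -x ∈ A.nonunits :=
  A.nonunits.neg_mem hx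

theorem nonunits_sub {x y : L} (hx : x ∈ A.nonunits) (hy : y ∈ A.nonunits) :
    x - y ∈ A.nonunits :=
  A.nonunits.sub_mem hx hy

theorem mem_of_mem_nonunits {x : L} (hx : x ∈ A.nonunits) : x ∈ A :=
  ValuationSubring.nonunits_subset hx

theorem nonunits_mul_left {x y : L} (hx : x ∈ A) (hy : y ∈ A.nonunits) :
    x * y ∈ A.nonunits := by
  rw [ValuationSubring.mem_nonunits_iff] at hy ⊢
  rw [map_mul]
  calc A.valuation x * A.valuation y ≤ 1 * A.valuation y :=
        mul_le_mul_left ((A.valuation_le_one_iff x).mpr hx) _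
    _ < 1 := by rwa [one_mul]

theorem nonunits_mul_right {x y : L} (hx : x ∈ A.nonunits) (hy : y ∈ A) :
    x * y ∈ A.nonunits := mul_comm y x ▸ nonunits_mul_left hy hx

theorem notMem_nonunits_iff {x : L} (_hx : x ∈ A) :
    x ∉ A.nonunits ↔ x ≠ 0 ∧ x⁻¹ ∈ A := by
  rw [ValuationSubring.mem_nonunits_iff_or]
  tauto

theorem eq_zero_or_mem_nonunits_or {x : L} :
    x ∈ A ∨ x⁻¹ ∈ A.nonunits := by
  rw [ValuationSubring.inv_mem_nonunits_iff]
  tauto

/-- An automorphism preserving `A` preserves the valuation of algebraic elements. -/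
theorem valuation_map_eq_of_mem_iff {S : Type*} [Field S] [Algebra S L] [Algebra.IsAlgebraic S L]
    (σ : L ≃ₐ[S] L) (h : ∀ x, σ x ∈ A ↔ x ∈ A) (x : L) : A.valuation (σ x) = A.valuation x := by
  rcases eq_or_ne x 0 with rfl | hx
  · simp
  have hle : ∀ {a b : L}, A.valuation (σ a) ≤ A.valuation (σ b) ↔ A.valuation a ≤ A.valuation b := by
    intro a b
    rcases eq_or_ne b 0 with rfl | hb
    · simp
    rw [← div_le_one₀ (zero_lt_iff.mpr ((A.valuation.ne_zero_iff).mpr ((map_ne_zero σ).mpr hb))),
      ← map_div₀, ← map_div₀, A.valuation_le_one_iff, h, ← A.valuation_le_one_iff, map_div₀,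
      div_le_one₀ (zero_lt_iff.mpr ((A.valuation.ne_zero_iff).mpr hb))]
  by_contra hne
  have hfin : (Set.range fun i : ℕ => A.valuation ((σ ^ i) x)).Finite := by
    refine (((minpoly S x).rootSet_finite L).image A.valuation).subset ?_
    rintro _ ⟨i, rfl⟩
    refine ⟨(σ ^ i) x, Polynomial.mem_rootSet.mpr
      ⟨minpoly.ne_zero (Algebra.IsIntegral.isIntegral x), ?_⟩, rfl⟩
    rw [Polynomial.aeval_algHom_apply, minpoly.aeval, map_zero]
  have hpow : ∀ (i : ℕ) (a b : L),
      A.valuation ((σ ^ i) a) < A.valuation ((σ ^ i) b) ↔ A.valuation a < A.valuation b := by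
    intro i
    induction i with
    | zero => simp
    | succ i ih =>
      intro a b
      rw [pow_succ' σ i, AlgEquiv.mul_apply, AlgEquiv.mul_apply, ← ih a b, ← not_le, hle, not_le]
  have hsucc : ∀ i : ℕ, (σ ^ (i + 1)) x = (σ ^ i) (σ x) := fun i => by
    rw [pow_succ, AlgEquiv.mul_apply]
  rcases lt_or_gt_of_ne hne with h1 | h1
  · exact Set.infinite_range_of_injective
      (strictAnti_nat_of_succ_lt fun i => by rw [hsucc, hpow]; exact h1).injective hfin
  · exact Set.infinite_range_of_injective
      (strictMono_nat_of_lt_succ fun i => by rw [hsucc, hpow]; exact h1).injective hfin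

end General

section QBarPlaces

/-- The centre of `A` on the ring of algebraic integers. -/
def centre (A : ValuationSubring QBar) : Ideal (integralClosure ℤ QBar) :=
  (IsLocalRing.maximalIdeal A).comap
    (({ toFun := fun x => ⟨(x : QBar), mem_of_isIntegral A x.2⟩
        map_one' := rfl
        map_mul' := fun _ _ => rfl
        map_zero' := rfl
        map_add' := fun _ _ => rfl } : integralClosure ℤ QBar →+* A))

theorem mem_centre (A : ValuationSubring QBar) {x : integralClosure ℤ QBar} : x ∈ centre A ↔ (x : QBar) ∈ A.nonunits := by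
  show _ ∈ IsLocalRing.maximalIdeal A ↔ _
  exact ValuationSubring.coe_mem_nonunits_iff.symm

instance centre_isPrime (A : ValuationSubring QBar) : (centre A).IsPrime := Ideal.IsPrime.comap _

variable {q : ℕ} {A : ValuationSubring QBar}

theorem natCast_mem_nonunits_iff (hA : A.LiesOverPrime q) (hq : q.Prime) (m : ℕ) :
    (m : QBar) ∈ A.nonunits ↔ q ∣ m := by
  constructor
  · intro hm
    by_contra hdvd
    have hco : Nat.Coprime q m := (Nat.Prime.coprime_iff_not_dvd hq).mpr hdvd
    have h : (1 : QBar) = (q : QBar) * (Nat.gcdA q m : ℤ) + (m : QBar) * (Nat.gcdB q m : ℤ) := by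
      have := Nat.gcd_eq_gcd_ab q m
      rw [hco.gcd_eq_one] at this
      exact_mod_cast this
    exact one_notMem_nonunits (A := A)
      (h ▸ nonunits_add (nonunits_mul_right hA (intCast_mem A _))
        (nonunits_mul_right hm (intCast_mem A _)))
  · rintro ⟨k, rfl⟩
    rw [Nat.cast_mul]
    exact nonunits_mul_right hA (natCast_mem A k)

theorem intCast_mem_nonunits_iff (hA : A.LiesOverPrime q) (hq : q.Prime) (m : ℤ) :
    (m : QBar) ∈ A.nonunits ↔ (q : ℤ) ∣ m := by
  rcases Int.natAbs_eq m with h | h <;> rw [h]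
  · rw [Int.cast_natCast, natCast_mem_nonunits_iff hA hq, Int.natCast_dvd_natCast]
  · rw [Int.cast_neg, Int.cast_natCast, Int.dvd_neg, Int.natCast_dvd_natCast,
      ← natCast_mem_nonunits_iff hA hq]
    exact ⟨fun h => by simpa using nonunits_neg h, nonunits_neg⟩

/-- A rational number is `A`-integral iff `q` does not divide its denominator. -/
theorem ratCast_mem_iff (hA : A.LiesOverPrime q) (hq : q.Prime) (r : ℚ) :
    (r : QBar) ∈ A ↔ ¬ q ∣ r.den := by
  have hden : (r.den : QBar) ≠ 0 := Nat.cast_ne_zero.mpr r.den_nz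
  have hr : (r : QBar) = (r.num : QBar) * (r.den : QBar)⁻¹ := by
    rw [← div_eq_mul_inv]; exact Rat.cast_def r
  constructor
  · intro hmem hdvd
    have h1 : (r : QBar) * (r.den : QBar) ∈ A.nonunits :=
      nonunits_mul_left hmem ((natCast_mem_nonunits_iff hA hq _).mpr hdvd)
    rw [hr, inv_mul_cancel_right₀ hden, intCast_mem_nonunits_iff hA hq] at h1
    exact hq.one_lt.ne' (Nat.dvd_one.mp
      (r.reduced.gcd_eq_one ▸ Nat.dvd_gcd (Int.natCast_dvd.mp h1) hdvd))
  · intro hdvd
    rw [hr]
    exact A.mul_mem _ _ (intCast_mem A _)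
      ((notMem_nonunits_iff (natCast_mem A _)).mp
        (mt (natCast_mem_nonunits_iff hA hq _).mp hdvd)).2

/-- A fraction with denominator a unit at `A`, inside the field generated by `x`. -/
theorem exists_fraction_mem (hA : A.LiesOverPrime q) (hq : q.Prime) (L : IntermediateField ℚ QBar) {x : QBar} (hxL : x ∈ L) (hx : x ∈ A) :
    ∃ b ∈ L, IsIntegral ℤ b ∧ IsIntegral ℤ (x * b) ∧ b ∉ A.nonunits := by
  classical
  -- a primitive integer polynomial with root `x`
  obtain ⟨f₀, hf₀, hf₀x⟩ :=
    (IsFractionRing.isAlgebraic_iff ℤ ℚ QBar).mpr (Algebra.IsAlgebraic.isAlgebraic (R := ℚ) x)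
  set f := f₀.primPart with hf
  have hprim : f.IsPrimitive := f₀.isPrimitive_primPart
  have hfx : Polynomial.aeval x f = 0 :=
    Polynomial.aeval_primPart_eq_zero hf₀ hf₀x
  -- the partial sums `b i = ∑_{j ≥ i} aⱼ x^(j - i)`
  let b : ℕ → QBar := fun i =>
    ∑ j ∈ Finset.Icc i f.natDegree, (f.coeff j : QBar) * x ^ (j - i)
  have hb_top : ∀ i, f.natDegree < i → b i = 0 := by
    intro i hi
    simp [b, Finset.Icc_eq_empty_of_lt hi]
  have hb_rec : ∀ i, b i = b (i + 1) * x + (f.coeff i : QBar) := by
    intro i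
    by_cases hi : i ≤ f.natDegree
    · show ∑ j ∈ Finset.Icc i f.natDegree, _ =
        (∑ j ∈ Finset.Icc (i + 1) f.natDegree, _) * x + _
      rw [Finset.sum_mul, ← Finset.add_sum_erase _ _ (Finset.left_mem_Icc.mpr hi),
        Finset.Icc_erase_left, ← Finset.Icc_add_one_left_eq_Ioc, Nat.sub_self, pow_zero, mul_one,
        add_comm]
      congr 1
      refine Finset.sum_congr rfl fun j hj => ?_
      rw [Finset.mem_Icc] at hj
      rw [mul_assoc, ← pow_succ, Nat.sub_add_comm hj.1 |>.symm]
      congr 2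
      omega
    · rw [hb_top i (by omega), hb_top (i + 1) (by omega),
        Polynomial.coeff_eq_zero_of_natDegree_lt (by omega)]
      simp
  have hb0 : b 0 = 0 := by
    rw [← hfx, Polynomial.aeval_eq_sum_range]
    show ∑ j ∈ Finset.Icc 0 f.natDegree, (f.coeff j : QBar) * x ^ (j - 0) = _
    rw [Nat.range_succ_eq_Icc_zero]
    exact Finset.sum_congr rfl fun j _ => by rw [Nat.sub_zero, zsmul_eq_mul]
  have hint : ∀ i, IsIntegral ℤ (b i) := fun i => isIntegral_of_forall_mem fun V => by
    rcases V.mem_or_inv_mem x with hxV | hxV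
    · exact sum_mem fun j _ => mul_mem (intCast_mem V _) (pow_mem hxV _)
    · induction i with
      | zero => rw [hb0]; exact V.zero_mem
      | succ n ih =>
        rcases eq_or_ne x 0 with rfl | hx0
        · exact sum_mem fun j _ => mul_mem (intCast_mem V _) (pow_mem V.zero_mem _)
        · have : b (n + 1) = (b n - (f.coeff n : QBar)) * x⁻¹ := by
            rw [hb_rec n, add_sub_cancel_right, mul_inv_cancel_right₀ hx0]
          exact this ▸ mul_mem (sub_mem ih (intCast_mem V _)) hxV
  have hbx : ∀ i, IsIntegral ℤ (b (i + 1) * x) := fun i => by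
    have : b (i + 1) * x = b i - (f.coeff i : QBar) := by rw [hb_rec i, add_sub_cancel_right]
    exact this ▸ (hint i).sub (isIntegral_intCast _)
  have hbL : ∀ i, b i ∈ L := fun i =>
    sum_mem fun j _ => mul_mem (intCast_mem L _) (pow_mem hxL _)
  by_contra hcon
  have hall : ∀ i, b i ∈ A.nonunits := by
    intro i
    cases i with
    | zero => rw [hb0]; exact A.nonunits.zero_mem
    | succ n =>
      by_contra h
      exact hcon ⟨_, hbL (n + 1), hint (n + 1), mul_comm x _ ▸ hbx n, h⟩
  have hcoef : ∀ i, (q : ℤ) ∣ f.coeff i := by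
    intro i
    rw [← intCast_mem_nonunits_iff hA hq]
    have : (f.coeff i : QBar) = b i - b (i + 1) * x := by rw [hb_rec i, add_sub_cancel_left]
    exact this ▸ nonunits_sub (hall i) (nonunits_mul_right (hall (i + 1)) hx)
  have := hprim (q : ℤ) (Polynomial.C_dvd_iff_dvd_coeff _ _ |>.mpr hcoef)
  rw [Int.isUnit_iff_natAbs_eq, Int.natAbs_natCast] at this
  exact hq.one_lt.ne' this

/-- Every `A`-integral algebraic number is a quotient of algebraic integers with denominator a
unit at `A`. -/
theorem exists_integral_fraction (hA : A.LiesOverPrime q) (hq : q.Prime) {x : QBar} (hx : x ∈ A) :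
    ∃ a b : QBar, IsIntegral ℤ a ∧ IsIntegral ℤ b ∧ b ∉ A.nonunits ∧ x * b = a :=
  let ⟨b, _, hb, hxb, hbn⟩ := exists_fraction_mem hA hq ⊤ IntermediateField.mem_top hx
  ⟨x * b, b, hxb, hb, hbn, rfl⟩

end QBarPlaces

end Fermat.Agent.Arith
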