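import Fermat.Agent.Arith.Places

/-!
# Kummer generators of additive characters
-/

set_option autoImplicit false

noncomputable section

namespace Fermat.Agent.Arith

/-- An additive character of a group of automorphisms fixing the `p`-th roots of unity has a
Kummer generator. -/
theorem exists_radical_of_add {p : ℕ} [hp : Fact p.Prime] {I : Subgroup GQ} {c : GQ → ZMod p}
    (hc : ∀ g ∈ I, ∀ h ∈ I, c (g * h) = c g + c h) (L : IntermediateField ℚ QBar)
    [FiniteDimensional ℚ L] (hL : ∀ g ∈ I, (∀ x ∈ L, g x = x) → c g = 0) {ω : QBar}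
    (hω : IsPrimitiveRoot ω p) (hωI : ∀ g ∈ I, g ω = ω) :
    ∃ α : QBar, α ≠ 0 ∧ ∀ g ∈ I, g α = ω ^ (c g).val * α := by
  classical
  let G := Set.range fun g : I => (g : GQ).toAlgHom.comp L.val
  have : Fintype G := Fintype.ofFinite G
  choose pre hpre using fun x : G => x.2
  have hwell : ∀ g ∈ I, ∀ h ∈ I, (∀ y ∈ L, g y = h y) → c h = c g := fun g hg h hh e => by
    have h1 := hc g hg _ (mul_mem (inv_mem hg) hh)
    rw [mul_inv_cancel_left] at h1
    rw [h1, hL _ (mul_mem (inv_mem hg) hh) fun y hy => by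
      rw [AlgEquiv.mul_apply, ← e y hy, ← AlgEquiv.mul_apply, inv_mul_cancel, AlgEquiv.one_apply],
      add_zero]
  let f : G → QBar := fun x => ω ^ (c (pre x)).val
  have hf0 : ∀ x, f x ≠ 0 := fun x => pow_ne_zero _ (hω.ne_zero hp.out.ne_zero)
  obtain ⟨z, hz⟩ : ∃ z : L, ∑ x : G, (f x)⁻¹ * x.1 z ≠ 0 := by
    by_contra! hall
    have hli := (linearIndependent_monoidHom L QBar).comp (fun x : G => (x.1 : L →* QBar))
      fun x y e => Subtype.ext (AlgHom.ext fun t => DFunLike.congr_fun e t)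
    exact inv_ne_zero (hf0 ⟨_, ⟨1, rfl⟩⟩) (Fintype.linearIndependent_iff.mp hli
      (fun x => (f x)⁻¹) (funext fun t => by simpa [Finset.sum_apply] using hall t) _)
  refine ⟨_, hz, fun g hg => ?_⟩
  let m : G → G := fun x => ⟨g.toAlgHom.comp x.1, ⟨g, hg⟩ * pre x, by
    conv_rhs => rw [← hpre x]
    rfl⟩
  have hm : Function.Bijective m := Finite.injective_iff_bijective.mp fun x y e =>
    Subtype.ext (AlgHom.ext fun t => g.injective (DFunLike.congr_fun (congrArg Subtype.val e) t))
  rw [map_sum, Finset.mul_sum]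
  refine Fintype.sum_bijective m hm _ _ fun x => ?_
  have e : c (pre (m x)) = c g + c (pre x) := by
    rw [← hc g hg _ (pre x).2]
    exact hwell _ (mul_mem hg (pre x).2) _ (pre (m x)).2 fun y hy => by
      have h1 := DFunLike.congr_fun (hpre (m x)) ⟨y, hy⟩
      have h2 := congrArg g (DFunLike.congr_fun (hpre x) ⟨y, hy⟩)
      exact h2.trans h1.symm
  have hfm : f (m x) = ω ^ (c g).val * f x := by
    simp only [f, e, ← pow_add, ZMod.val_add]
    exact (pow_eq_pow_mod _ hω.pow_eq_one).symm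
  rw [map_mul, map_inv₀, map_pow, hωI g hg, hfm, mul_inv, ← mul_assoc, ← mul_assoc,
    mul_inv_cancel₀ (pow_ne_zero _ (hω.ne_zero hp.out.ne_zero)), one_mul]
  rfl

end Fermat.Agent.Arith
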