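import Fermat.Agent.Deform.Burnside
import Fermat.Agent.Deform.Residual

/-!
# A representation with absolutely irreducible reduction spans the endomorphisms, and the trace
pairing against its image is nondegenerate
-/

set_option autoImplicit false

noncomputable section

namespace Fermat.Agent.Arith

open Matrix Module IsLocalRing

variable {T : Type} [CommRing T] [IsLocalRing T]

theorem span_matOf_eq_top (ρ : GaloisRepAdic T) (habs : ρ.residual.IsAbsolutelyIrreducible)
    (b : Basis (Fin 2) T ρ.V) :
    Submodule.span T (Set.range fun σ => Fermat.Agent.Deform.matOf ρ b σ) = ⊤ := by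
  refine Deform.span_range_eq_top_of_map (residue T) residue_surjective
    (fun a => (residue_eq_zero_iff a).mp) _ ?_
  rw [show (fun σ => (Deform.matOf ρ b σ).map (residue T)) = fun σ =>
      LinearMap.toMatrixAlgEquiv (b.baseChange (ResidueField T)) (ρ.residual.ρ σ) from
    funext fun σ => (DFunLike.congr_fun (Deform.matRes_residual ρ b) σ).symm]
  exact Deform.span_matrix_eq_top ρ.residual habs (b.baseChange (ResidueField T))

/-- If all `tr (ρ σ ∘ X)` lie in an ideal, `X` is divisible by it. -/
theorem mem_smul_of_forall_trace_comp (ρ : GaloisRepAdic T)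
    (habs : ρ.residual.IsAbsolutelyIrreducible) (I : Ideal T) (X : Module.End T ρ.V)
    (h : ∀ σ, LinearMap.trace T ρ.V (ρ.ρ σ * X) ∈ I) (v : ρ.V) :
    X v ∈ I • (⊤ : Submodule T ρ.V) := by
  let b := Module.finBasisOfFinrankEq T ρ.V ρ.finrank_eq
  set M := LinearMap.toMatrixAlgEquiv b X with hM
  have h1 : ∀ Y : Matrix (Fin 2) (Fin 2) T, Matrix.trace (Y * M) ∈ I := by
    intro Y
    have hY : Y ∈ Submodule.span T (Set.range fun σ => Fermat.Agent.Deform.matOf ρ b σ) := by
      rw [span_matOf_eq_top ρ habs b]; exact Submodule.mem_top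
    induction hY using Submodule.span_induction with
    | mem Y hY =>
      obtain ⟨σ, rfl⟩ := hY
      have := h σ
      rwa [LinearMap.trace_eq_matrix_trace T b, LinearMap.toMatrix_mul] at this
    | zero => rw [zero_mul, Matrix.trace_zero]; exact I.zero_mem
    | add x y _ _ hx hy => rw [add_mul, Matrix.trace_add]; exact I.add_mem hx hy
    | smul c x _ hx => rw [smul_mul_assoc, Matrix.trace_smul]; exact I.mul_mem_left _ hx
  have h2 : ∀ i j, M i j ∈ I := by
    intro i j
    have := h1 (Matrix.single j i 1)
    rw [Matrix.trace_fin_two] at this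
    fin_cases i <;> fin_cases j <;>
      simpa [Matrix.mul_apply, Fin.sum_univ_two, Matrix.single] using this
  have hXb : ∀ j, X (b j) ∈ I • (⊤ : Submodule T ρ.V) := fun j => by
    rw [← b.sum_repr (X (b j))]
    refine Submodule.sum_mem _ fun i _ => Submodule.smul_mem_smul ?_ Submodule.mem_top
    rw [← LinearMap.toMatrixAlgEquiv_apply b X i j]
    exact h2 i j
  rw [← b.sum_repr v, map_sum]
  exact Submodule.sum_mem _ fun j _ => by
    rw [map_smul]; exact Submodule.smul_mem _ _ (hXb j)

/-- If `tr (ρ σ ∘ X) = 0` for all `σ`, then `X = 0`. -/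
theorem eq_zero_of_forall_trace_comp (ρ : GaloisRepAdic T)
    (habs : ρ.residual.IsAbsolutelyIrreducible) (X : Module.End T ρ.V)
    (h : ∀ σ, LinearMap.trace T ρ.V (ρ.ρ σ * X) = 0) : X = 0 :=
  LinearMap.ext fun v => by
    simpa using mem_smul_of_forall_trace_comp ρ habs ⊥ X (fun σ => Ideal.mem_bot.2 (h σ)) v

end Fermat.Agent.Arith
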