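import Mathlib
import Fermat.Prelude.Def_FLTPrelim_Ramification

/-!
# The value group of a place over a prime `q`

On an algebraic extension of `ℚ` a place over `q` has rank one: a power of every value is a power
of the value of `q`, with an exponent uniform over each number field.
-/

set_option autoImplicit false

namespace Fermat.Agent.Arith

variable {L : Type*} [Field L] {A : ValuationSubring L} {q : ℕ}

theorem valuation_prime_lt_one (hA : A.LiesOverPrime q) : A.valuation (q : L) < 1 :=
  (ValuationSubring.mem_nonunits_iff (A := A)).mp hA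

variable [CharZero L]

theorem exists_zpow_ratCast (hA : A.LiesOverPrime q) (hq : q.Prime) {a : ℚ} (ha : a ≠ 0) :
    ∃ z : ℤ, A.valuation (a : L) = A.valuation (q : L) ^ z := by
  have hnat : ∀ m : ℕ, m ≠ 0 → ∃ z : ℤ, A.valuation (m : L) = A.valuation (q : L) ^ z := by
    intro m hm
    obtain ⟨k, u, hu, rfl⟩ := Nat.exists_eq_pow_mul_and_not_dvd hm q hq.ne_one
    refine ⟨k, ?_⟩
    have hu1 : A.valuation (u : L) = 1 := by
      obtain ⟨x, y, hxy⟩ := Int.isCoprime_iff_gcd_eq_one.mpr
        (show Int.gcd (q : ℤ) (u : ℤ) = 1 from (hq.coprime_iff_not_dvd.mpr hu).gcd_eq_one)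
      refine le_antisymm ((A.valuation_le_one_iff _).mpr (natCast_mem A u))
        (not_lt.mp fun hlt => ?_)
      have h1 : (x : L) * (q : L) + (y : L) * (u : L) = 1 := by
        exact_mod_cast congrArg (Int.cast (R := L)) hxy
      have h2 := A.valuation.map_add ((x : L) * (q : L)) ((y : L) * (u : L))
      rw [h1, map_one, map_mul, map_mul] at h2
      have hx1 := (A.valuation_le_one_iff _).mpr (intCast_mem A x)
      have hy1 := (A.valuation_le_one_iff _).mpr (intCast_mem A y)
      rcases le_max_iff.mp h2 with h3 | h3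
      · exact absurd (h3.trans (mul_le_of_le_one_left' hx1))
          (not_le.mpr (valuation_prime_lt_one hA))
      · exact absurd (h3.trans (mul_le_of_le_one_left' hy1)) (not_le.mpr hlt)
    push_cast
    rw [map_mul, map_pow, hu1, mul_one, zpow_natCast]
  obtain ⟨z₁, h₁⟩ := hnat a.num.natAbs (by simpa using ha)
  obtain ⟨z₂, h₂⟩ := hnat a.den a.den_nz
  refine ⟨z₁ - z₂, ?_⟩
  have hnum : A.valuation (a.num : L) = A.valuation (a.num.natAbs : L) := by
    rcases Int.natAbs_eq a.num with h | h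
    · conv_lhs => rw [h]
      rw [Int.cast_natCast]
    · conv_lhs => rw [h]
      rw [Int.cast_neg, Valuation.map_neg, Int.cast_natCast]
  rw [Rat.cast_def, map_div₀, hnum, h₁, h₂,
    zpow_sub₀ ((Valuation.ne_zero_iff _).mpr (Nat.cast_ne_zero.mpr hq.ne_zero))]

/-- In an algebraic extension of `ℚ` the value group is rationally generated by `v(q)`. -/
theorem exists_zpow_of_mem (hA : A.LiesOverPrime q) (hq : q.Prime) (E : IntermediateField ℚ L)
    [FiniteDimensional ℚ E] {x : L} (hx : x ∈ E) (h0 : x ≠ 0) :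
    ∃ z : ℤ, A.valuation x ^ (Module.finrank ℚ E).factorial = A.valuation (q : L) ^ z := by
  set xE : E := ⟨x, hx⟩ with hxE
  have hint : IsIntegral ℚ xE := Algebra.IsIntegral.isIntegral xE
  set p := minpoly ℚ xE with hp
  have hrel : ∑ i ∈ p.support, (p.coeff i : L) * x ^ i = 0 := by
    have h := congrArg Subtype.val (minpoly.aeval ℚ xE)
    rw [← hp, Polynomial.aeval_eq_sum_range] at h
    rw [Finset.sum_subset (s₂ := Finset.range (p.natDegree + 1))
      Polynomial.supp_subset_range_natDegree_succ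
      (fun i _ hi => by rw [Polynomial.notMem_support_iff.mp hi]; simp)]
    simpa [Algebra.smul_def, hxE] using h
  have hne : p.support.Nonempty := Polynomial.support_nonempty.mpr (minpoly.ne_zero hint)
  obtain ⟨i, hi, hmax⟩ := Finset.exists_max_image p.support
    (fun i => A.valuation ((p.coeff i : L) * x ^ i)) hne
  obtain ⟨j, hj, hji, heq⟩ : ∃ j ∈ p.support, j ≠ i ∧
      A.valuation ((p.coeff j : L) * x ^ j) = A.valuation ((p.coeff i : L) * x ^ i) := by
    by_contra! hno
    have h1 := A.valuation.map_sum_eq_of_lt hi (fun j hj => by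
      rw [Finset.mem_sdiff, Finset.mem_singleton] at hj
      exact lt_of_le_of_ne (hmax j hj.1) (hno j hj.1 hj.2))
    rw [hrel, map_zero] at h1
    have hpi : (p.coeff i : L) ≠ 0 := by exact_mod_cast Polynomial.mem_support_iff.mp hi
    exact mul_ne_zero hpi (pow_ne_zero _ h0) ((Valuation.zero_iff _).mp h1.symm)
  obtain ⟨zi, hzi⟩ := exists_zpow_ratCast hA hq (Polynomial.mem_support_iff.mp hi)
  obtain ⟨zj, hzj⟩ := exists_zpow_ratCast hA hq (Polynomial.mem_support_iff.mp hj)
  rw [map_mul, map_mul, map_pow, map_pow, hzi, hzj] at heq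
  have hq0 : A.valuation (q : L) ≠ 0 :=
    (Valuation.ne_zero_iff _).mpr (Nat.cast_ne_zero.mpr hq.ne_zero)
  have hv0 : A.valuation x ≠ 0 := (Valuation.ne_zero_iff _).mpr h0
  have hkey : A.valuation x ^ ((j : ℤ) - i) = A.valuation (q : L) ^ (zi - zj) := by
    rw [zpow_sub₀ hv0, zpow_sub₀ hq0, zpow_natCast, zpow_natCast,
      div_eq_div_iff (pow_ne_zero _ hv0) (zpow_ne_zero _ hq0), mul_comm, heq]
  have hdeg : ∀ n ∈ p.support, n ≤ Module.finrank ℚ E := fun n hn =>
    (Polynomial.le_natDegree_of_mem_supp n hn).trans (minpoly.natDegree_le xE)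
  obtain ⟨r, hr⟩ : ((j : ℤ) - i) ∣ ((Module.finrank ℚ E).factorial : ℤ) := by
    rw [← Int.natAbs_dvd, Int.natCast_dvd_natCast]
    refine Nat.dvd_factorial (Int.natAbs_pos.mpr (by omega)) ?_
    have := hdeg i hi; have := hdeg j hj
    omega
  refine ⟨(zi - zj) * r, ?_⟩
  rw [← zpow_natCast, hr, zpow_mul, hkey, zpow_mul]

theorem exists_pow_valuation_eq_zpow [Algebra.IsAlgebraic ℚ L] (hA : A.LiesOverPrime q)
    (hq : q.Prime) {x : L} (h0 : x ≠ 0) :
    ∃ e : ℕ, 0 < e ∧ ∃ z : ℤ, A.valuation x ^ e = A.valuation (q : L) ^ z := by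
  have : FiniteDimensional ℚ (IntermediateField.adjoin ℚ {x}) :=
    IntermediateField.adjoin.finiteDimensional (Algebra.IsAlgebraic.isAlgebraic x).isIntegral
  exact ⟨_, Nat.factorial_pos _, exists_zpow_of_mem hA hq _
    (IntermediateField.mem_adjoin_simple_self ℚ x) h0⟩

theorem zpow_le_zpow_iff_prime (hA : A.LiesOverPrime q) (hq : q.Prime) {m n : ℤ} :
    A.valuation (q : L) ^ m ≤ A.valuation (q : L) ^ n ↔ n ≤ m :=
  zpow_le_zpow_iff_right_of_lt_one₀ (zero_lt_iff.mpr ((Valuation.ne_zero_iff _).mpr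
    (Nat.cast_ne_zero.mpr hq.ne_zero))) (valuation_prime_lt_one hA)

end Fermat.Agent.Arith
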